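import Mathlib.RingTheory.AdicCompletion.Functoriality
import Fermat.Prelude.Def_GaloisRep_DeformationRingData
import Fermat.Agent.S53.TangentBound
import Fermat.Agent.S53.LimitRing

/-!
# P-S56, block (C)-TOP: from a tangent space bound to a surjection from a power series ring

* `exists_mvPowerSeries_surjective_of_generators` (T1): a complete local `𝒪`-algebra `R` with
  residue field `k_𝒪` whose maximal ideal is generated by `t₁, …, t_r` and `𝔪_𝒪` is a quotient
  of `𝒪⟦X₁, …, X_r⟧` (with `X i ↦ t i`).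
* `exists_generators_of_card_algHom_le_pow` (T2a): if there are at most `|k|^r` local
  `𝒪`-algebra homs `R → k[ε]`, the maximal ideal of `R` is generated by `r` elements and `𝔪_𝒪`.
* `exists_mvPowerSeries_surjective_of_card_algHom_le_pow` (T2).
* `exists_mvPowerSeries_surjective_deformationRingData` (T3): the shape used in S56.
-/

set_option autoImplicit false

open IsLocalRing MvPowerSeries

namespace Fermat.Agent.S56x.Top

open Fermat.Agent.S53

section T1

variable {𝒪 : Type} [CommRing 𝒪] [IsLocalRing 𝒪]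
  {R : Type} [CommRing R] [IsLocalRing R] [Algebra 𝒪 R] [IsLocalHom (algebraMap 𝒪 R)]

/-- The `𝔪_R`-adic tower of a local `𝒪`-algebra satisfies the tower hypotheses of S53. -/
theorem towerHyp_adic {r : ℕ} (t : Fin r → R)
    (hres : Function.Surjective (residue R ∘ algebraMap 𝒪 R))
    (ht : ∀ i, t i ∈ maximalIdeal R)
    (hgen : maximalIdeal R ≤
      Ideal.span (Set.range t) ⊔ (maximalIdeal 𝒪).map (algebraMap 𝒪 R) ⊔ maximalIdeal R ^ 2) :
    TowerHyp (𝒪 := 𝒪) (maximalIdeal R) (fun n => maximalIdeal R ^ n) t where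
  ne_top := (maximalIdeal.isMaximal R).ne_top
  res x := by
    obtain ⟨a, ha⟩ := hres (residue R x)
    exact ⟨a, tb_mem_of_residue_eq ha⟩
  map_le := by
    rw [Ideal.map_le_iff_le_comap]
    intro a ha
    exact tb_algebraMap_mem ha
  pow_le n := le_rfl
  le_max n hn := Ideal.pow_le_self (by omega)
  anti n := Ideal.pow_le_pow_right (Nat.le_succ n)
  step n := le_sup_right
  t_mem := ht
  gen := hgen.trans le_sup_left

omit [IsLocalRing 𝒪] [IsLocalHom (algebraMap 𝒪 R)] [Algebra 𝒪 R] in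
/-- Separatedness in the form we use. -/
theorem eq_of_forall_mk_pow_eq [IsHausdorff (maximalIdeal R) R] {x y : R}
    (h : ∀ n : ℕ, Ideal.Quotient.mk (maximalIdeal R ^ n) x =
      Ideal.Quotient.mk (maximalIdeal R ^ n) y) : x = y := by
  rw [← sub_eq_zero]
  apply IsHausdorff.haus (inferInstance : IsHausdorff (maximalIdeal R) R)
  intro n
  rw [SModEq.sub_mem, sub_zero, smul_eq_mul, Ideal.mul_top]
  exact Ideal.Quotient.eq.mp (h n)

variable [IsAdicComplete (maximalIdeal R) R]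

/-- The evaluation map `𝒪⟦X₁..X_r⟧ → R`, `X i ↦ t i`, attached to a tower hypothesis on the
`𝔪_R`-adic tower of a complete local ring `R`. -/
noncomputable def evalAdic {r : ℕ} {t : Fin r → R}
    (h : TowerHyp (𝒪 := 𝒪) (maximalIdeal R) (fun n => maximalIdeal R ^ n) t) :
    MvPowerSeries (Fin r) 𝒪 →ₐ[𝒪] R :=
  IsAdicComplete.liftAlgHom (maximalIdeal R) (fun n => h.phi n)
    (fun hle => h.factor_comp_phi hle)

omit [IsLocalHom (algebraMap 𝒪 R)] in
theorem mk_evalAdic {r : ℕ} {t : Fin r → R}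
    (h : TowerHyp (𝒪 := 𝒪) (maximalIdeal R) (fun n => maximalIdeal R ^ n) t) (n : ℕ)
    (p : MvPowerSeries (Fin r) 𝒪) :
    Ideal.Quotient.mk (maximalIdeal R ^ n) (evalAdic h p) = h.phi n p :=
  IsAdicComplete.mk_liftAlgHom (maximalIdeal R) (fun n => h.phi n)
    (fun hle => h.factor_comp_phi hle) n p

omit [IsLocalHom (algebraMap 𝒪 R)] in
theorem evalAdic_X {r : ℕ} {t : Fin r → R}
    (h : TowerHyp (𝒪 := 𝒪) (maximalIdeal R) (fun n => maximalIdeal R ^ n) t) (i : Fin r) :
    evalAdic h (X i) = t i := by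
  apply eq_of_forall_mk_pow_eq
  intro n
  rw [mk_evalAdic, h.phi_X]

omit [IsLocalHom (algebraMap 𝒪 R)] in
theorem evalAdic_mem_maximalIdeal {r : ℕ} {t : Fin r → R}
    (h : TowerHyp (𝒪 := 𝒪) (maximalIdeal R) (fun n => maximalIdeal R ^ n) t)
    {p : MvPowerSeries (Fin r) 𝒪} (hp : p ∈ maximalIdeal (MvPowerSeries (Fin r) 𝒪)) :
    evalAdic h p ∈ maximalIdeal R := by
  have h1 := h.phi_mem_of_mem_maximalIdeal 1 hp
  rw [← mk_evalAdic h 1 p, Ideal.mem_map_iff_of_surjective _ Ideal.Quotient.mk_surjective] at h1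
  obtain ⟨y, hy, hyp⟩ := h1
  have h2 : y - evalAdic h p ∈ maximalIdeal R := by
    have := Ideal.Quotient.eq.mp hyp
    simpa using this
  have h3 : evalAdic h p = y - (y - evalAdic h p) := by ring
  rw [h3]
  exact Ideal.sub_mem _ hy h2

omit [IsLocalHom (algebraMap 𝒪 R)] in
/-- The ideal generated by the image of `𝔪_P` under `evalAdic` is `𝔪_R`. -/
theorem map_evalAdic_maximalIdeal {r : ℕ} {t : Fin r → R}
    (h : TowerHyp (𝒪 := 𝒪) (maximalIdeal R) (fun n => maximalIdeal R ^ n) t)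
    (hgen : maximalIdeal R ≤
      Ideal.span (Set.range t) ⊔ (maximalIdeal 𝒪).map (algebraMap 𝒪 R)) :
    (maximalIdeal (MvPowerSeries (Fin r) 𝒪)).map
      (evalAdic h : MvPowerSeries (Fin r) 𝒪 →+* R) = maximalIdeal R := by
  apply le_antisymm
  · rw [Ideal.map_le_iff_le_comap]
    intro p hp
    exact evalAdic_mem_maximalIdeal h hp
  · refine hgen.trans (sup_le ?_ ?_)
    · rw [Ideal.span_le]
      rintro _ ⟨i, rfl⟩
      rw [← evalAdic_X h i]
      exact Ideal.mem_map_of_mem _ (X_mem_maximalIdeal i)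
    · rw [Ideal.map_le_iff_le_comap]
      intro a ha
      rw [Ideal.mem_comap, ← (evalAdic h).commutes a]
      refine Ideal.mem_map_of_mem _ ?_
      have h1 : algebraMap 𝒪 (MvPowerSeries (Fin r) 𝒪) a = C a := by
        rw [MvPowerSeries.algebraMap_apply]
        rfl
      rw [h1]
      exact map_C_maximalIdeal_le (Ideal.mem_map_of_mem _ ha)

/-- **(T1)** A complete local `𝒪`-algebra `R` with the same residue field as `𝒪`, whose maximal
ideal is generated by `t₁, …, t_r` together with the image of `𝔪_𝒪`, is a quotient of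
`𝒪⟦X₁, …, X_r⟧` via `X i ↦ t i`. -/
theorem exists_mvPowerSeries_surjective_of_generators [IsPrecomplete (maximalIdeal 𝒪) 𝒪]
    {r : ℕ} (t : Fin r → R)
    (hres : Function.Surjective (residue R ∘ algebraMap 𝒪 R))
    (ht : ∀ i, t i ∈ maximalIdeal R)
    (hgen : maximalIdeal R =
      Ideal.span (Set.range t) ⊔ (maximalIdeal 𝒪).map (algebraMap 𝒪 R)) :
    ∃ γ : MvPowerSeries (Fin r) 𝒪 →ₐ[𝒪] R, Function.Surjective γ ∧ ∀ i, γ (X i) = t i := by
  have h : TowerHyp (𝒪 := 𝒪) (maximalIdeal R) (fun n => maximalIdeal R ^ n) t :=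
    towerHyp_adic t hres ht (hgen.le.trans le_sup_left)
  refine ⟨evalAdic h, ?_, evalAdic_X h⟩
  have hmap := map_evalAdic_maximalIdeal h hgen.le
  have : IsPrecomplete (maximalIdeal (MvPowerSeries (Fin r) 𝒪)) (MvPowerSeries (Fin r) 𝒪) :=
    isPrecomplete_mvPowerSeries
  have : IsHausdorff ((maximalIdeal (MvPowerSeries (Fin r) 𝒪)).map
      (evalAdic h : MvPowerSeries (Fin r) 𝒪 →+* R)) R := by
    rw [hmap]; infer_instance
  have hsurj : Function.Surjective (evalAdic h : MvPowerSeries (Fin r) 𝒪 →+* R) := by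
    apply surjective_of_mk_map_comp_surjective
      (I := maximalIdeal (MvPowerSeries (Fin r) 𝒪))
    intro y
    obtain ⟨x, rfl⟩ := Ideal.Quotient.mk_surjective y
    obtain ⟨a, ha⟩ := hres (residue R x)
    refine ⟨algebraMap 𝒪 _ a, ?_⟩
    rw [RingHom.comp_apply]
    show Ideal.Quotient.mk _ (evalAdic h (algebraMap 𝒪 _ a)) = _
    rw [(evalAdic h).commutes a, Ideal.Quotient.eq, hmap]
    have := tb_mem_of_residue_eq ha
    rw [← neg_sub]
    exact neg_mem this
  exact hsurj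

end T1

section T2

variable {𝒪 A : Type} [CommRing 𝒪] [IsLocalRing 𝒪] [CommRing A] [IsLocalRing A]
  [IsNoetherianRing A] [Algebra 𝒪 A] [IsLocalHom (algebraMap 𝒪 A)]

/-- The span of the image of `𝔪_𝒪` in the cotangent space of `A`. -/
noncomputable def relV0 (𝒪 A : Type) [CommRing 𝒪] [IsLocalRing 𝒪] [CommRing A] [IsLocalRing A]
    [Algebra 𝒪 A] [IsLocalHom (algebraMap 𝒪 A)] :
    Submodule (ResidueField A) (CotangentSpace A) :=
  Submodule.span (ResidueField A) (Set.range fun o : maximalIdeal 𝒪 =>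
    (maximalIdeal A).toCotangent ⟨algebraMap 𝒪 A o, tb_algebraMap_mem o.2⟩)

omit [IsNoetherianRing A] in
theorem relV0_mkQ_eq_zero (o : 𝒪) (ho : o ∈ maximalIdeal 𝒪) :
    (relV0 𝒪 A).mkQ ((maximalIdeal A).toCotangent
      ⟨algebraMap 𝒪 A o, tb_algebraMap_mem ho⟩) = 0 := by
  rw [Submodule.mkQ_apply, Submodule.Quotient.mk_eq_zero]
  exact Submodule.subset_span ⟨⟨o, ho⟩, rfl⟩

/-- The relative cotangent dimension is at most `r` if there are at most `|k|^r` local
`𝒪`-algebra homs `A → k[ε]`. -/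
theorem finrank_relCotangent_le_of_card_algHom_le_pow [Finite (ResidueField 𝒪)]
    (hsurj : Function.Surjective (residue A ∘ algebraMap 𝒪 A))
    [Algebra 𝒪 (DualNumber (ResidueField 𝒪))]
    (halg : ∀ o : 𝒪, algebraMap 𝒪 (DualNumber (ResidueField 𝒪)) o =
      TrivSqZeroExt.inl (residue 𝒪 o))
    (r : ℕ)
    (hT : ∀ s : Finset (A →ₐ[𝒪] DualNumber (ResidueField 𝒪)),
      (∀ φ ∈ s, IsLocalHom (φ : A →+* DualNumber (ResidueField 𝒪))) →
        s.card ≤ Nat.card (ResidueField 𝒪) ^ r) :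
    Module.finrank (ResidueField A) (CotangentSpace A ⧸ relV0 𝒪 A) ≤ r := by
  classical
  have hbij := tb_residueMap_bijective hsurj
  have : Finite (ResidueField A) := Finite.of_surjective _ hbij.2
  have hcardk : Nat.card (ResidueField A) = Nat.card (ResidueField 𝒪) :=
    (Nat.card_eq_of_bijective _ hbij).symm
  set W := CotangentSpace A ⧸ relV0 𝒪 A with hW
  have : Finite (Module.Dual (ResidueField A) W) := Module.finite_of_finite (ResidueField A)
  let _ : Fintype (Module.Dual (ResidueField A) W) := Fintype.ofFinite _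
  have hl0 : ∀ (l : Module.Dual (ResidueField A) W) (o : 𝒪) (ho : o ∈ maximalIdeal 𝒪),
      (l.comp (relV0 𝒪 A).mkQ) ((maximalIdeal A).toCotangent
        ⟨algebraMap 𝒪 A o, tb_algebraMap_mem ho⟩) = 0 := by
    intro l o ho
    rw [LinearMap.comp_apply, relV0_mkQ_eq_zero o ho, map_zero]
  let Φ : Module.Dual (ResidueField A) W → (A →ₐ[𝒪] DualNumber (ResidueField 𝒪)) :=
    fun l => tbAlgHom hsurj (l.comp (relV0 𝒪 A).mkQ) (hl0 l) halg
  have hΦinj : Function.Injective Φ := by
    intro l l' h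
    apply LinearMap.ext
    intro w
    obtain ⟨c, rfl⟩ := (relV0 𝒪 A).mkQ_surjective w
    obtain ⟨x, rfl⟩ := (maximalIdeal A).toCotangent_surjective c
    have h1 : Φ l (x : A) = Φ l' (x : A) := by rw [h]
    have h2 : ∀ l'' : Module.Dual (ResidueField A) W, Φ l'' (x : A) =
        TrivSqZeroExt.inr (tbResInv hsurj
          (l'' ((relV0 𝒪 A).mkQ ((maximalIdeal A).toCotangent x)))) := by
      intro l''
      show tbRingHom hsurj (l''.comp (relV0 𝒪 A).mkQ) (hl0 l'') (x : A) = _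
      rw [tbRingHom_of_mem _ _ _ _ x.2, Subtype.coe_eta, LinearMap.comp_apply]
    rw [h2, h2] at h1
    exact tbResInv_injective hsurj (TrivSqZeroExt.inr_injective h1)
  have h1 := hT (Finset.univ.image Φ) (fun φ hφ => by
    obtain ⟨l, -, rfl⟩ := Finset.mem_image.mp hφ
    exact tbRingHom_isLocalHom hsurj (l.comp (relV0 𝒪 A).mkQ) (hl0 l))
  rw [Finset.card_image_of_injective _ hΦinj, Finset.card_univ, Fintype.card_eq_nat_card,
    Module.natCard_eq_pow_finrank (K := ResidueField A), Subspace.dual_finrank_eq, hcardk] at h1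
  exact (Nat.pow_le_pow_iff_right Finite.one_lt_card).mp h1

/-- If the relative cotangent dimension is at most `r`, then `𝔪_A` is generated by `r` elements
together with the image of `𝔪_𝒪`. -/
theorem exists_generators_of_finrank_relCotangent_le (r : ℕ)
    (hr : Module.finrank (ResidueField A) (CotangentSpace A ⧸ relV0 𝒪 A) ≤ r) :
    ∃ t : Fin r → A, (∀ i, t i ∈ maximalIdeal A) ∧
      maximalIdeal A = Ideal.span (Set.range t) ⊔ (maximalIdeal 𝒪).map (algebraMap 𝒪 A) := by
  classical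
  let V0 := relV0 𝒪 A
  let b := Module.finBasis (ResidueField A) (CotangentSpace A ⧸ V0)
  have hx : ∀ j, ∃ x : maximalIdeal A, V0.mkQ ((maximalIdeal A).toCotangent x) = b j := by
    intro j
    obtain ⟨w, hw⟩ := V0.mkQ_surjective (b j)
    obtain ⟨x, rfl⟩ := (maximalIdeal A).toCotangent_surjective w
    exact ⟨x, hw⟩
  choose x hx using hx
  let s : Set (maximalIdeal A) := (Set.range fun o : maximalIdeal 𝒪 =>
    (⟨algebraMap 𝒪 A o, tb_algebraMap_mem o.2⟩ : maximalIdeal A)) ∪ Set.range x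
  have hspanK : Submodule.span (ResidueField A) ((maximalIdeal A).toCotangent '' s) = ⊤ := by
    have hV0 : V0 ≤ Submodule.span (ResidueField A) ((maximalIdeal A).toCotangent '' s) := by
      apply Submodule.span_le.mpr
      rintro _ ⟨o, rfl⟩
      exact Submodule.subset_span ⟨_, Or.inl ⟨o, rfl⟩, rfl⟩
    have hmap : Submodule.map V0.mkQ
        (Submodule.span (ResidueField A) ((maximalIdeal A).toCotangent '' s)) = ⊤ := by
      rw [eq_top_iff, ← b.span_eq]
      apply Submodule.span_le.mpr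
      rintro _ ⟨j, rfl⟩
      exact ⟨_, Submodule.subset_span ⟨x j, Or.inr ⟨j, rfl⟩, rfl⟩, hx j⟩
    have h3 := Submodule.comap_map_mkQ V0
      (Submodule.span (ResidueField A) ((maximalIdeal A).toCotangent '' s))
    rw [hmap, Submodule.comap_top, sup_eq_right.mpr hV0] at h3
    exact h3.symm
  have hspanA : Submodule.span A s = ⊤ := CotangentSpace.span_image_eq_top_iff.mp hspanK
  have hm : maximalIdeal A = Ideal.span (Subtype.val '' s) := by
    have h4 := congrArg (Submodule.map (maximalIdeal A).subtype) hspanA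
    rw [Submodule.map_span, Submodule.map_subtype_top] at h4
    exact h4.symm
  have hval : Subtype.val '' s =
      (algebraMap 𝒪 A '' (maximalIdeal 𝒪 : Set 𝒪)) ∪ Set.range fun j => (x j : A) := by
    ext a
    constructor
    · rintro ⟨y, hy | hy, rfl⟩
      · obtain ⟨o, rfl⟩ := hy
        exact Or.inl ⟨o, o.2, rfl⟩
      · obtain ⟨j, rfl⟩ := hy
        exact Or.inr ⟨j, rfl⟩
    · rintro (⟨o, ho, rfl⟩ | ⟨j, rfl⟩)
      · exact ⟨⟨algebraMap 𝒪 A o, tb_algebraMap_mem ho⟩, Or.inl ⟨⟨o, ho⟩, rfl⟩, rfl⟩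
      · exact ⟨x j, Or.inr ⟨j, rfl⟩, rfl⟩
  -- padding
  let t : Fin r → A := fun i =>
    if h : (i : ℕ) < Module.finrank (ResidueField A) (CotangentSpace A ⧸ V0) then (x ⟨i, h⟩ : A)
    else 0
  have ht_mem : ∀ i, t i ∈ maximalIdeal A := by
    intro i
    show (if h : (i : ℕ) < Module.finrank (ResidueField A) (CotangentSpace A ⧸ V0) then
      (x ⟨i, h⟩ : A) else 0) ∈ maximalIdeal A
    split_ifs with h
    · exact (x ⟨i, h⟩).2
    · exact Ideal.zero_mem _
  have hspan_t : Ideal.span (Set.range t) = Ideal.span (Set.range fun j => (x j : A)) := by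
    apply le_antisymm
    · apply Ideal.span_le.mpr
      rintro _ ⟨i, rfl⟩
      show (if h : (i : ℕ) < Module.finrank (ResidueField A) (CotangentSpace A ⧸ V0) then
        (x ⟨i, h⟩ : A) else 0) ∈ _
      split_ifs with h
      · exact Ideal.subset_span ⟨⟨i, h⟩, rfl⟩
      · exact Ideal.zero_mem _
    · apply Ideal.span_le.mpr
      rintro _ ⟨j, rfl⟩
      refine Ideal.subset_span ⟨⟨j, lt_of_lt_of_le j.2 hr⟩, ?_⟩
      show (if h : (j : ℕ) < Module.finrank (ResidueField A) (CotangentSpace A ⧸ V0) then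
        (x ⟨j, h⟩ : A) else 0) = _
      rw [dif_pos j.2]
  refine ⟨t, ht_mem, ?_⟩
  rw [hspan_t]
  refine hm.trans ?_
  rw [hval, Ideal.span_union, sup_comm]
  rfl

/-- **(T2a)** If there are at most `|k|^r` local `𝒪`-algebra homs `A → k[ε]`, then `𝔪_A` is
generated by `r` elements together with the image of `𝔪_𝒪`. -/
theorem exists_generators_of_card_algHom_le_pow [Finite (ResidueField 𝒪)]
    (hsurj : Function.Surjective (residue A ∘ algebraMap 𝒪 A))
    [Algebra 𝒪 (DualNumber (ResidueField 𝒪))]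
    (halg : ∀ o : 𝒪, algebraMap 𝒪 (DualNumber (ResidueField 𝒪)) o =
      TrivSqZeroExt.inl (residue 𝒪 o))
    (r : ℕ)
    (hT : ∀ s : Finset (A →ₐ[𝒪] DualNumber (ResidueField 𝒪)),
      (∀ φ ∈ s, IsLocalHom (φ : A →+* DualNumber (ResidueField 𝒪))) →
        s.card ≤ Nat.card (ResidueField 𝒪) ^ r) :
    ∃ t : Fin r → A, (∀ i, t i ∈ maximalIdeal A) ∧
      maximalIdeal A = Ideal.span (Set.range t) ⊔ (maximalIdeal 𝒪).map (algebraMap 𝒪 A) :=
  exists_generators_of_finrank_relCotangent_le r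
    (finrank_relCotangent_le_of_card_algHom_le_pow hsurj halg r hT)

/-- **(T2)** A complete local noetherian `𝒪`-algebra `A` with residue field `k = k_𝒪` having at
most `|k|^r` local `𝒪`-algebra homs to `k[ε]` is a quotient of `𝒪⟦X₁, …, X_r⟧`. -/
theorem exists_mvPowerSeries_surjective_of_card_algHom_le_pow [Finite (ResidueField 𝒪)]
    [IsPrecomplete (maximalIdeal 𝒪) 𝒪] [IsAdicComplete (maximalIdeal A) A]
    (hsurj : Function.Surjective (residue A ∘ algebraMap 𝒪 A))
    [Algebra 𝒪 (DualNumber (ResidueField 𝒪))]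
    (halg : ∀ o : 𝒪, algebraMap 𝒪 (DualNumber (ResidueField 𝒪)) o =
      TrivSqZeroExt.inl (residue 𝒪 o))
    (r : ℕ)
    (hT : ∀ s : Finset (A →ₐ[𝒪] DualNumber (ResidueField 𝒪)),
      (∀ φ ∈ s, IsLocalHom (φ : A →+* DualNumber (ResidueField 𝒪))) →
        s.card ≤ Nat.card (ResidueField 𝒪) ^ r) :
    ∃ γ : MvPowerSeries (Fin r) 𝒪 →ₐ[𝒪] A, Function.Surjective γ := by
  obtain ⟨t, ht, hgen⟩ := exists_generators_of_card_algHom_le_pow hsurj halg r hT
  obtain ⟨γ, hγ, -⟩ := exists_mvPowerSeries_surjective_of_generators t hsurj ht hgen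
  exact ⟨γ, hγ⟩

end T2

section T3

open GaloisRep

/-- **(T3)** The shape used in S56: a deformation ring `DQ.R` with at most `|k|^r` local
`𝒪`-algebra homs to `k[ε]` is a quotient of `𝒪⟦X₁, …, X_r⟧`. -/
theorem exists_mvPowerSeries_surjective_deformationRingData
    {𝒪 : Type} [CommRing 𝒪] [IsDomain 𝒪] [IsDiscreteValuationRing 𝒪]
    [IsAdicComplete (maximalIdeal 𝒪) 𝒪] [Finite (ResidueField 𝒪)]
    {ρbar : ResidualGaloisRep (ResidueField 𝒪)}
    {𝒟 : ∀ ⦃A : Type⦄ [CommRing A] [IsLocalRing A] [Algebra 𝒪 A], GaloisRepAdic A → Prop}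
    (DQ : DeformationRingData 𝒪 ρbar 𝒟)
    [Algebra 𝒪 (DualNumber (ResidueField 𝒪))]
    (halg : ∀ o : 𝒪, algebraMap 𝒪 (DualNumber (ResidueField 𝒪)) o =
      TrivSqZeroExt.inl (residue 𝒪 o))
    (r : ℕ)
    (hT : ∀ s : Finset (DQ.R →ₐ[𝒪] DualNumber (ResidueField 𝒪)),
      (∀ φ ∈ s, IsLocalHom (φ : DQ.R →+* DualNumber (ResidueField 𝒪))) →
        s.card ≤ Nat.card (ResidueField 𝒪) ^ r) :
    ∃ γ : MvPowerSeries (Fin r) 𝒪 →ₐ[𝒪] DQ.R, Function.Surjective γ :=
  exists_mvPowerSeries_surjective_of_card_algHom_le_pow DQ.residue_surjective halg r hT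

end T3

end Fermat.Agent.S56x.Top
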