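import Fermat.Prelude.Def_GaloisRep_DeformationRingData
import Fermat.Agent.S53.TangentBound
import Fermat.Agent.S56x.Top.PowerSeriesSurj

/-!
# P-S56, block (C)-TOP: the tangent space of a deformation ring injects into the lifts to `k[ε]`

For `DQ : GaloisRep.DeformationRingData 𝒪 ρbar 𝒟` the uniqueness part of the universal property
at `A = k[ε]` shows that a local `𝒪`-algebra hom `φ : DQ.R → k[ε]` is determined by the
equivalence class of the lift `DQ.ρ.baseChangeAlong φ`, provided the latter is of type `𝒟`.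
-/

set_option autoImplicit false

open IsLocalRing

namespace Fermat.Agent.S56x.Top

open Fermat.Agent.S53 GaloisRep

section Nilpotent

variable {R : Type*} [CommRing R] (I : Ideal R) (M : Type*) [AddCommGroup M] [Module R M]

/-- A module is adically complete with respect to a nilpotent ideal. -/
theorem isAdicComplete_of_pow_eq_bot {N : ℕ} (hN : I ^ N = ⊥) : IsAdicComplete I M where
  haus' x hx := by
    have h := hx N
    rw [hN, Submodule.bot_smul, SModEq.sub_mem, sub_zero] at h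
    exact (Submodule.mem_bot R).mp h
  prec' f hf := by
    refine ⟨f N, fun n => ?_⟩
    rcases le_total n N with h | h
    · exact hf h
    · have h1 := hf h
      rw [hN, Submodule.bot_smul, SModEq.sub_mem, Submodule.mem_bot, sub_eq_zero] at h1
      rw [h1]

end Nilpotent

section DualNumber

variable (K : Type) [Field K]

theorem dualNumber_mem_maximalIdeal_iff (x : DualNumber K) :
    x ∈ maximalIdeal (DualNumber K) ↔ TrivSqZeroExt.fst x = 0 := by
  constructor
  · intro hx
    by_contra h0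
    rw [mem_maximalIdeal, mem_nonunits_iff] at hx
    apply hx
    rw [TrivSqZeroExt.isUnit_iff_isUnit_fst]
    exact isUnit_iff_ne_zero.mpr h0
  · intro h0
    have : x = TrivSqZeroExt.inr (TrivSqZeroExt.snd x) := by
      ext <;> simp [h0]
    rw [this]
    exact tb_dualNumber_inr_mem_maximalIdeal K _

theorem dualNumber_maximalIdeal_sq : maximalIdeal (DualNumber K) ^ 2 = ⊥ := by
  rw [eq_bot_iff, pow_two, Ideal.mul_le]
  intro x hx y hy
  rw [dualNumber_mem_maximalIdeal_iff] at hx hy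
  rw [Ideal.mem_bot]
  ext <;> simp [hx, hy]

instance dualNumber_isAdicComplete :
    IsAdicComplete (maximalIdeal (DualNumber K)) (DualNumber K) :=
  isAdicComplete_of_pow_eq_bot _ _ (dualNumber_maximalIdeal_sq K)

end DualNumber

section Refined

attribute [local instance] tbDualAlgebra

variable {𝒪 : Type} [CommRing 𝒪] [IsLocalRing 𝒪]

/-- Every `𝒪`-algebra hom from a local `𝒪`-algebra to `k[ε]` is local. -/
theorem isLocalHom_of_algHom_dualNumber {A : Type} [CommRing A] [IsLocalRing A]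
    [Algebra 𝒪 A] (φ : A →ₐ[𝒪] DualNumber (ResidueField 𝒪)) :
    IsLocalHom (φ : A →+* DualNumber (ResidueField 𝒪)) := by
  let f : A →+* ResidueField 𝒪 :=
    (TrivSqZeroExt.fstHom (ResidueField 𝒪) (ResidueField 𝒪) (ResidueField 𝒪) :
      DualNumber (ResidueField 𝒪) →+* ResidueField 𝒪).comp (φ : A →+* DualNumber (ResidueField 𝒪))
  have hf : Function.Surjective f := by
    intro y
    obtain ⟨o, rfl⟩ := residue_surjective y
    refine ⟨algebraMap 𝒪 A o, ?_⟩
    show TrivSqZeroExt.fst (φ (algebraMap 𝒪 A o)) = _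
    rw [φ.commutes, tbDualAlgebra_algebraMap, TrivSqZeroExt.fst_inl]
  have hker : RingHom.ker f = maximalIdeal A :=
    eq_maximalIdeal (RingHom.ker_isMaximal_of_surjective f hf)
  refine ⟨fun a ha => ?_⟩
  by_contra hna
  have hmem : a ∈ RingHom.ker f := hker ▸ (mem_maximalIdeal a).mpr hna
  have h0 : TrivSqZeroExt.fst (φ a) = 0 := hmem
  have h1 : IsUnit (TrivSqZeroExt.fst (φ a)) := TrivSqZeroExt.isUnit_iff_isUnit_fst.mp ha
  rw [h0] at h1
  exact not_isUnit_zero h1


/-! ### The refined contract: only surjective tangent homs need to be of type `𝒟` -/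

variable {A : Type} [CommRing A] [IsLocalRing A] [Algebra 𝒪 A] [IsLocalHom (algebraMap 𝒪 A)]

/-- The trivial tangent hom `A → k → k[ε]`. -/
noncomputable def trivialTangentHom
    (hsurj : Function.Surjective (residue A ∘ algebraMap 𝒪 A)) :
    A →ₐ[𝒪] DualNumber (ResidueField 𝒪) :=
  tbAlgHom hsurj 0 (fun _ _ => rfl) (tbDualAlgebra_algebraMap 𝒪)

theorem trivialTangentHom_apply
    (hsurj : Function.Surjective (residue A ∘ algebraMap 𝒪 A)) (a : A) :
    trivialTangentHom hsurj a = TrivSqZeroExt.inl (tbResInv hsurj (residue A a)) := by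
  show tbRingHom hsurj 0 (fun _ _ => rfl) a = _
  rw [tbRingHom_apply]
  have : tbD hsurj (0 : CotangentSpace A →ₗ[ResidueField A] ResidueField A) a = 0 := rfl
  rw [this, map_zero, TrivSqZeroExt.inr_zero, add_zero]

/-- The first component of any tangent hom is the residue map. -/
theorem fst_algHom_dualNumber
    (hsurj : Function.Surjective (residue A ∘ algebraMap 𝒪 A))
    (φ : A →ₐ[𝒪] DualNumber (ResidueField 𝒪)) (a : A) :
    TrivSqZeroExt.fst (φ a) = tbResInv hsurj (residue A a) := by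
  have hloc := isLocalHom_of_algHom_dualNumber φ
  obtain ⟨o, ho⟩ := hsurj (residue A a)
  have hd : a - algebraMap 𝒪 A o ∈ maximalIdeal A := tb_mem_of_residue_eq ho
  have h1 : TrivSqZeroExt.fst (φ (a - algebraMap 𝒪 A o)) = 0 := by
    by_contra h0
    have hu : IsUnit (φ (a - algebraMap 𝒪 A o)) :=
      TrivSqZeroExt.isUnit_iff_isUnit_fst.mpr (isUnit_iff_ne_zero.mpr h0)
    exact (mem_maximalIdeal _).mp hd (hloc.map_nonunit _ hu)
  rw [map_sub, TrivSqZeroExt.fst_sub, φ.commutes, tbDualAlgebra_algebraMap,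
    TrivSqZeroExt.fst_inl, sub_eq_zero] at h1
  have ho' : residue A a = residue A (algebraMap 𝒪 A o) := ho.symm
  rw [h1, ho', tbResInv_residue]

/-- A tangent hom is either surjective or the trivial one. -/
theorem algHom_dualNumber_surjective_or_eq_trivial
    (hsurj : Function.Surjective (residue A ∘ algebraMap 𝒪 A))
    (φ : A →ₐ[𝒪] DualNumber (ResidueField 𝒪)) :
    Function.Surjective φ ∨ φ = trivialTangentHom hsurj := by
  by_cases h : ∀ a : A, TrivSqZeroExt.snd (φ a) = 0
  · right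
    apply AlgHom.ext
    intro a
    rw [trivialTangentHom_apply]
    ext
    · rw [fst_algHom_dualNumber hsurj φ a, TrivSqZeroExt.fst_inl]
    · rw [h a, TrivSqZeroExt.snd_inl]
  · left
    push Not at h
    obtain ⟨a, ha⟩ := h
    obtain ⟨o, ho⟩ := hsurj (residue A a)
    -- `b := a - o` maps to `inr c` with `c ≠ 0`
    have hb : φ (a - algebraMap 𝒪 A o) = TrivSqZeroExt.inr (TrivSqZeroExt.snd (φ a)) := by
      ext
      · rw [map_sub, TrivSqZeroExt.fst_sub, fst_algHom_dualNumber hsurj φ a, φ.commutes,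
          tbDualAlgebra_algebraMap, TrivSqZeroExt.fst_inl, TrivSqZeroExt.fst_inr,
          ← ho, Function.comp_apply, tbResInv_residue, sub_self]
      · rw [map_sub, TrivSqZeroExt.snd_sub, φ.commutes, tbDualAlgebra_algebraMap,
          TrivSqZeroExt.snd_inl, sub_zero, TrivSqZeroExt.snd_inr]
    intro x
    obtain ⟨u, hu⟩ := residue_surjective (TrivSqZeroExt.fst x)
    obtain ⟨v, hv⟩ := residue_surjective
      (TrivSqZeroExt.snd x * (TrivSqZeroExt.snd (φ a))⁻¹)
    refine ⟨algebraMap 𝒪 A u + algebraMap 𝒪 A v * (a - algebraMap 𝒪 A o), ?_⟩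
    rw [map_add, map_mul, hb, φ.commutes, φ.commutes, tbDualAlgebra_algebraMap,
      tbDualAlgebra_algebraMap, hu, hv]
    ext
    · simp
    · simp only [TrivSqZeroExt.snd_add, TrivSqZeroExt.snd_inl, TrivSqZeroExt.snd_mul,
        TrivSqZeroExt.fst_inl, TrivSqZeroExt.snd_inr, TrivSqZeroExt.fst_inr, zero_add,
        smul_eq_mul, MulOpposite.smul_eq_mul_unop, MulOpposite.unop_op, mul_zero, add_zero]
      field_simp

end Refined

section Main

attribute [local instance] tbDualAlgebra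

variable {𝒪 : Type} [CommRing 𝒪] [IsDomain 𝒪] [IsDiscreteValuationRing 𝒪]
  [IsAdicComplete (maximalIdeal 𝒪) 𝒪]
  {ρbar : ResidualGaloisRep (ResidueField 𝒪)}
  {𝒟 : ∀ ⦃A : Type⦄ [CommRing A] [IsLocalRing A] [Algebra 𝒪 A], GaloisRepAdic A → Prop}

/-- The lift of `ρbar` to `k[ε]` attached to a local `𝒪`-algebra hom `DQ.R → k[ε]`. -/
noncomputable def tangentLift (DQ : DeformationRingData 𝒪 ρbar 𝒟)
    (φ : DQ.R →ₐ[𝒪] DualNumber (ResidueField 𝒪))
    (hφ : IsLocalHom (φ : DQ.R →+* DualNumber (ResidueField 𝒪))) :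
    GaloisRepAdic (DualNumber (ResidueField 𝒪)) :=
  DQ.ρ.baseChangeAlong (φ : DQ.R →+* DualNumber (ResidueField 𝒪)) hφ

/-- `tangentLift` is a lift of `ρbar`. -/
theorem tangentLift_residual_isEquiv (DQ : DeformationRingData 𝒪 ρbar 𝒟)
    (φ : DQ.R →ₐ[𝒪] DualNumber (ResidueField 𝒪))
    (hφ : IsLocalHom (φ : DQ.R →+* DualNumber (ResidueField 𝒪))) :
    (tangentLift DQ φ hφ).residual.IsEquiv
      (ρbar.baseChangeAlong
        (ResidueField.map (algebraMap 𝒪 (DualNumber (ResidueField 𝒪))))) :=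
  residual_isEquiv_baseChangeAlong ρbar DQ.ρ DQ.residual_isEquiv φ hφ

/-- **(C1)** A local `𝒪`-algebra hom `DQ.R → k[ε]` is determined by the equivalence class of
the attached lift, as soon as that lift is of type `𝒟`. -/
theorem algHom_eq_of_tangentLift_isEquiv (DQ : DeformationRingData 𝒪 ρbar 𝒟)
    (φ φ' : DQ.R →ₐ[𝒪] DualNumber (ResidueField 𝒪))
    (hφ : IsLocalHom (φ : DQ.R →+* DualNumber (ResidueField 𝒪)))
    (hφ' : IsLocalHom (φ' : DQ.R →+* DualNumber (ResidueField 𝒪)))
    (h𝒟 : 𝒟 (tangentLift DQ φ' hφ'))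
    (he : (tangentLift DQ φ hφ).IsEquiv (tangentLift DQ φ' hφ')) : φ = φ' := by
  obtain ⟨ψ, -, hψ⟩ := DQ.universal (DualNumber (ResidueField 𝒪))
    (tbDualAlgebra_residue_surjective 𝒪) (tangentLift DQ φ' hφ') h𝒟
    (tangentLift_residual_isEquiv DQ φ' hφ')
  rw [hψ φ ⟨hφ, he⟩, hψ φ' ⟨hφ', ⟨GaloisRepAdic.Equiv.refl _⟩⟩]

/-- **(C1')** Count bound from a classifying map: if every tangent lift is of type `𝒟` and there
is a map `cls` from the type-`𝒟` lifts of `ρbar` over `k[ε]` to a set `H` with at most `|k|^r`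
elements which separates equivalence classes, then there are at most `|k|^r` local `𝒪`-algebra
homs `DQ.R → k[ε]`. -/
theorem card_algHom_le_of_classMap [Finite (ResidueField 𝒪)]
    (DQ : DeformationRingData 𝒪 ρbar 𝒟) (r : ℕ)
    (h𝒟bc : ∀ (φ : DQ.R →ₐ[𝒪] DualNumber (ResidueField 𝒪))
      (hφ : IsLocalHom (φ : DQ.R →+* DualNumber (ResidueField 𝒪))), 𝒟 (tangentLift DQ φ hφ))
    {H : Type*} [Finite H] (hH : Nat.card H ≤ Nat.card (ResidueField 𝒪) ^ r)
    (cls : ∀ ρ : GaloisRepAdic (DualNumber (ResidueField 𝒪)), 𝒟 ρ →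
      ρ.residual.IsEquiv (ρbar.baseChangeAlong
        (ResidueField.map (algebraMap 𝒪 (DualNumber (ResidueField 𝒪))))) → H)
    (hcls : ∀ (ρ ρ' : GaloisRepAdic (DualNumber (ResidueField 𝒪))) (h : 𝒟 ρ) (h' : 𝒟 ρ')
      (g : ρ.residual.IsEquiv (ρbar.baseChangeAlong
        (ResidueField.map (algebraMap 𝒪 (DualNumber (ResidueField 𝒪))))))
      (g' : ρ'.residual.IsEquiv (ρbar.baseChangeAlong
        (ResidueField.map (algebraMap 𝒪 (DualNumber (ResidueField 𝒪)))))),
      cls ρ h g = cls ρ' h' g' → ρ.IsEquiv ρ')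
    (s : Finset (DQ.R →ₐ[𝒪] DualNumber (ResidueField 𝒪)))
    (hs : ∀ φ ∈ s, IsLocalHom (φ : DQ.R →+* DualNumber (ResidueField 𝒪))) :
    s.card ≤ Nat.card (ResidueField 𝒪) ^ r := by
  classical
  let F : (↥s) → H := fun x =>
    cls (tangentLift DQ x.1 (hs x.1 x.2)) (h𝒟bc x.1 (hs x.1 x.2))
      (tangentLift_residual_isEquiv DQ x.1 (hs x.1 x.2))
  have hF : Function.Injective F := by
    intro x y hxy
    apply Subtype.ext
    exact algHom_eq_of_tangentLift_isEquiv DQ x.1 y.1 (hs x.1 x.2) (hs y.1 y.2)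
      (h𝒟bc y.1 (hs y.1 y.2)) (hcls _ _ _ _ _ _ hxy)
  have h1 := Nat.card_le_card_of_injective F hF
  rw [Nat.card_eq_fintype_card, Fintype.card_coe] at h1
  exact h1.trans hH

/-- **(C-TOP)** The final step of S56 in contract form: base-change stability of `𝒟` along the
tangent homs plus a classifying map into a set with at most `|k|^r` elements give a surjection
`𝒪⟦X₁, …, X_r⟧ → DQ.R`. -/
theorem exists_mvPowerSeries_surjective_of_classMap [Finite (ResidueField 𝒪)]
    (DQ : DeformationRingData 𝒪 ρbar 𝒟) (r : ℕ)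
    (h𝒟bc : ∀ (φ : DQ.R →ₐ[𝒪] DualNumber (ResidueField 𝒪))
      (hφ : IsLocalHom (φ : DQ.R →+* DualNumber (ResidueField 𝒪))), 𝒟 (tangentLift DQ φ hφ))
    {H : Type*} [Finite H] (hH : Nat.card H ≤ Nat.card (ResidueField 𝒪) ^ r)
    (cls : ∀ ρ : GaloisRepAdic (DualNumber (ResidueField 𝒪)), 𝒟 ρ →
      ρ.residual.IsEquiv (ρbar.baseChangeAlong
        (ResidueField.map (algebraMap 𝒪 (DualNumber (ResidueField 𝒪))))) → H)
    (hcls : ∀ (ρ ρ' : GaloisRepAdic (DualNumber (ResidueField 𝒪))) (h : 𝒟 ρ) (h' : 𝒟 ρ')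
      (g : ρ.residual.IsEquiv (ρbar.baseChangeAlong
        (ResidueField.map (algebraMap 𝒪 (DualNumber (ResidueField 𝒪))))))
      (g' : ρ'.residual.IsEquiv (ρbar.baseChangeAlong
        (ResidueField.map (algebraMap 𝒪 (DualNumber (ResidueField 𝒪)))))),
      cls ρ h g = cls ρ' h' g' → ρ.IsEquiv ρ') :
    ∃ γ : MvPowerSeries (Fin r) 𝒪 →ₐ[𝒪] DQ.R, Function.Surjective γ :=
  exists_mvPowerSeries_surjective_deformationRingData DQ (tbDualAlgebra_algebraMap 𝒪) r
    (card_algHom_le_of_classMap DQ r h𝒟bc hH cls hcls)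


/-- The trivial lift of `ρbar` to `k[ε]` seen from `DQ`. -/
noncomputable def trivialTangentLift (DQ : DeformationRingData 𝒪 ρbar 𝒟) :
    GaloisRepAdic (DualNumber (ResidueField 𝒪)) :=
  tangentLift DQ (trivialTangentHom DQ.residue_surjective)
    (isLocalHom_of_algHom_dualNumber _)

/-- **(C1'')** Refined count bound: only the *surjective* tangent homs have to give lifts of
type `𝒟`; in exchange the classifying map must detect the trivial lift (`cls ρ = z₀` implies that
`ρ` is equivalent to the trivial lift). -/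
theorem card_algHom_le_of_classMap_surjective [Finite (ResidueField 𝒪)]
    (DQ : DeformationRingData 𝒪 ρbar 𝒟) (r : ℕ)
    (h𝒟bc : ∀ (φ : DQ.R →ₐ[𝒪] DualNumber (ResidueField 𝒪))
      (hφ : IsLocalHom (φ : DQ.R →+* DualNumber (ResidueField 𝒪))),
      Function.Surjective φ → 𝒟 (tangentLift DQ φ hφ))
    {H : Type*} [Finite H] (hH : Nat.card H ≤ Nat.card (ResidueField 𝒪) ^ r)
    (cls : ∀ ρ : GaloisRepAdic (DualNumber (ResidueField 𝒪)), 𝒟 ρ →
      ρ.residual.IsEquiv (ρbar.baseChangeAlong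
        (ResidueField.map (algebraMap 𝒪 (DualNumber (ResidueField 𝒪))))) → H)
    (hcls : ∀ (ρ ρ' : GaloisRepAdic (DualNumber (ResidueField 𝒪))) (h : 𝒟 ρ) (h' : 𝒟 ρ')
      (g : ρ.residual.IsEquiv (ρbar.baseChangeAlong
        (ResidueField.map (algebraMap 𝒪 (DualNumber (ResidueField 𝒪))))))
      (g' : ρ'.residual.IsEquiv (ρbar.baseChangeAlong
        (ResidueField.map (algebraMap 𝒪 (DualNumber (ResidueField 𝒪)))))),
      cls ρ h g = cls ρ' h' g' → ρ.IsEquiv ρ')
    (z₀ : H)
    (hz : ∀ (ρ : GaloisRepAdic (DualNumber (ResidueField 𝒪))) (h : 𝒟 ρ)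
      (g : ρ.residual.IsEquiv (ρbar.baseChangeAlong
        (ResidueField.map (algebraMap 𝒪 (DualNumber (ResidueField 𝒪)))))),
      cls ρ h g = z₀ → ρ.IsEquiv (trivialTangentLift DQ))
    (s : Finset (DQ.R →ₐ[𝒪] DualNumber (ResidueField 𝒪)))
    (hs : ∀ φ ∈ s, IsLocalHom (φ : DQ.R →+* DualNumber (ResidueField 𝒪))) :
    s.card ≤ Nat.card (ResidueField 𝒪) ^ r := by
  classical
  let F : (↥s) → H := fun x =>
    if hx : Function.Surjective x.1 then
      cls (tangentLift DQ x.1 (hs x.1 x.2)) (h𝒟bc x.1 (hs x.1 x.2) hx)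
        (tangentLift_residual_isEquiv DQ x.1 (hs x.1 x.2))
    else z₀
  -- a surjective hom with class `z₀` is the trivial hom
  have key : ∀ x : ↥s, ∀ hx : Function.Surjective x.1,
      cls (tangentLift DQ x.1 (hs x.1 x.2)) (h𝒟bc x.1 (hs x.1 x.2) hx)
        (tangentLift_residual_isEquiv DQ x.1 (hs x.1 x.2)) = z₀ →
      x.1 = trivialTangentHom DQ.residue_surjective := by
    intro x hx hxz
    obtain ⟨e⟩ := hz _ _ _ hxz
    exact (algHom_eq_of_tangentLift_isEquiv DQ (trivialTangentHom DQ.residue_surjective) x.1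
      (isLocalHom_of_algHom_dualNumber _) (hs x.1 x.2) (h𝒟bc x.1 (hs x.1 x.2) hx)
      ⟨e.symm⟩).symm
  have hF : Function.Injective F := by
    intro x y hxy
    apply Subtype.ext
    by_cases hx : Function.Surjective x.1
    · by_cases hy : Function.Surjective y.1
      · simp only [F, dif_pos hx, dif_pos hy] at hxy
        exact algHom_eq_of_tangentLift_isEquiv DQ x.1 y.1 (hs x.1 x.2) (hs y.1 y.2)
          (h𝒟bc y.1 (hs y.1 y.2) hy) (hcls _ _ _ _ _ _ hxy)
      · simp only [F, dif_pos hx, dif_neg hy] at hxy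
        rw [key x hx hxy]
        exact ((algHom_dualNumber_surjective_or_eq_trivial DQ.residue_surjective
          y.1).resolve_left hy).symm
    · by_cases hy : Function.Surjective y.1
      · simp only [F, dif_neg hx, dif_pos hy] at hxy
        rw [key y hy hxy.symm]
        exact (algHom_dualNumber_surjective_or_eq_trivial DQ.residue_surjective
          x.1).resolve_left hx
      · rw [(algHom_dualNumber_surjective_or_eq_trivial DQ.residue_surjective
          x.1).resolve_left hx, (algHom_dualNumber_surjective_or_eq_trivial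
          DQ.residue_surjective y.1).resolve_left hy]
  have h1 := Nat.card_le_card_of_injective F hF
  rw [Nat.card_eq_fintype_card, Fintype.card_coe] at h1
  exact h1.trans hH

/-- **(C-TOP')** The final step of S56 in refined contract form. -/
theorem exists_mvPowerSeries_surjective_of_classMap_surjective [Finite (ResidueField 𝒪)]
    (DQ : DeformationRingData 𝒪 ρbar 𝒟) (r : ℕ)
    (h𝒟bc : ∀ (φ : DQ.R →ₐ[𝒪] DualNumber (ResidueField 𝒪))
      (hφ : IsLocalHom (φ : DQ.R →+* DualNumber (ResidueField 𝒪))),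
      Function.Surjective φ → 𝒟 (tangentLift DQ φ hφ))
    {H : Type*} [Finite H] (hH : Nat.card H ≤ Nat.card (ResidueField 𝒪) ^ r)
    (cls : ∀ ρ : GaloisRepAdic (DualNumber (ResidueField 𝒪)), 𝒟 ρ →
      ρ.residual.IsEquiv (ρbar.baseChangeAlong
        (ResidueField.map (algebraMap 𝒪 (DualNumber (ResidueField 𝒪))))) → H)
    (hcls : ∀ (ρ ρ' : GaloisRepAdic (DualNumber (ResidueField 𝒪))) (h : 𝒟 ρ) (h' : 𝒟 ρ')
      (g : ρ.residual.IsEquiv (ρbar.baseChangeAlong
        (ResidueField.map (algebraMap 𝒪 (DualNumber (ResidueField 𝒪))))))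
      (g' : ρ'.residual.IsEquiv (ρbar.baseChangeAlong
        (ResidueField.map (algebraMap 𝒪 (DualNumber (ResidueField 𝒪)))))),
      cls ρ h g = cls ρ' h' g' → ρ.IsEquiv ρ')
    (z₀ : H)
    (hz : ∀ (ρ : GaloisRepAdic (DualNumber (ResidueField 𝒪))) (h : 𝒟 ρ)
      (g : ρ.residual.IsEquiv (ρbar.baseChangeAlong
        (ResidueField.map (algebraMap 𝒪 (DualNumber (ResidueField 𝒪)))))),
      cls ρ h g = z₀ → ρ.IsEquiv (trivialTangentLift DQ)) :
    ∃ γ : MvPowerSeries (Fin r) 𝒪 →ₐ[𝒪] DQ.R, Function.Surjective γ :=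
  exists_mvPowerSeries_surjective_deformationRingData DQ (tbDualAlgebra_algebraMap 𝒪) r
    (card_algHom_le_of_classMap_surjective DQ r h𝒟bc hH cls hcls z₀ hz)

end Main

end Fermat.Agent.S56x.Top
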